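import Fermat.Agent.S27.H.Main

/-!
# FFDiv : `Pic⁰` of a function field over `ℂ` is divisible

(The proof is the geometric part of `S27.card_torsion_complex`, fed into `S27.F.exists_isMulChart` and
`S27.F.divisible`.)
-/

set_option autoImplicit false

universe v

namespace Fermat.Agent.FFDiv

open AlgebraicCurve Fermat.Agent.S24.FF Fermat.Agent.S27 Topology Filter Metric

theorem divisible_complex (Fc : Type v) [Field Fc] [Algebra ℂ Fc] [IsFF1 ℂ Fc] (n : ℕ)
    (hn : 0 < n) (x : Pic0 ℂ Fc) : ∃ b : Pic0 ℂ Fc, n • b = x := by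
  classical
  have hcomp : CompactSpace (Place ℂ Fc) := compactSpace_place
  obtain ⟨S, hS⟩ := exists_charts (F := Fc)
  -- three disjoint nonspecial families
  obtain ⟨P₁, hi₁, hS₁, hn₁⟩ := exists_nonspecial (K := ℂ) (F := Fc) S
  obtain ⟨P₂, hi₂, hS₂, hn₂⟩ := exists_nonspecial (K := ℂ) (F := Fc)
    (S ∪ Finset.univ.image P₁)
  obtain ⟨P₃, hi₃, hS₃, hn₃⟩ := exists_nonspecial (K := ℂ) (F := Fc)
    (S ∪ Finset.univ.image P₁ ∪ Finset.univ.image P₂)
  have h12 : ∀ i j, P₁ i ≠ P₂ j := fun i j h => hS₂ j (by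
    rw [← h]; exact Finset.mem_union_right _ (Finset.mem_image_of_mem _ (Finset.mem_univ i)))
  have h13 : ∀ i j, P₁ i ≠ P₃ j := fun i j h => hS₃ j (by
    rw [← h]
    exact Finset.mem_union_left _
      (Finset.mem_union_right _ (Finset.mem_image_of_mem _ (Finset.mem_univ i))))
  have h23 : ∀ i j, P₂ i ≠ P₃ j := fun i j h => hS₃ j (by
    rw [← h]; exact Finset.mem_union_right _ (Finset.mem_image_of_mem _ (Finset.mem_univ i)))
  have c₁ : ∀ i, Chart (P₁ i) := fun i => (hS _ (hS₁ i)).some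
  have c₂ : ∀ i, Chart (P₂ i) := fun i =>
    (hS _ (fun h => hS₂ i (Finset.mem_union_left _ h))).some
  have c₃ : ∀ i, Chart (P₃ i) := fun i =>
    (hS _ (fun h => hS₃ i (Finset.mem_union_left _ (Finset.mem_union_left _ h)))).some
  -- residuations
  have inj3 : ∀ {Pa Pb Pc : Fin (genusFF ℂ Fc) → Place ℂ Fc}, Function.Injective Pa →
      Function.Injective Pb → Function.Injective Pc → (∀ i j, Pa i ≠ Pb j) →
      (∀ i j, Pa i ≠ Pc j) → (∀ i j, Pb i ≠ Pc j) →
      Function.Injective (Sum.elim Pa (Sum.elim Pb Pc)) := by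
    intro Pa Pb Pc ha hb hc hab hac hbc
    refine ha.sumElim (hb.sumElim hc hbc) ?_
    rintro i (j | j)
    · exact hab i j
    · exact hac i j
  have R123 : Res (chartMap c₁) (chartMap c₂) (chartMap c₃) :=
    residuation rfl P₁ P₂ P₃ (inj3 hi₁ hi₂ hi₃ h12 h13 h23) c₁ c₂ c₃ hn₃
  have R312 : Res (chartMap c₃) (chartMap c₁) (chartMap c₂) :=
    residuation rfl P₃ P₁ P₂ (inj3 hi₃ hi₁ hi₂ (fun i j => (h13 j i).symm)
      (fun i j => (h23 j i).symm) h12) c₃ c₁ c₂ hn₂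
  have R321 : Res (chartMap c₃) (chartMap c₂) (chartMap c₁) :=
    residuation rfl P₃ P₂ P₁ (inj3 hi₃ hi₂ hi₁ (fun i j => (h23 j i).symm)
      (fun i j => (h13 j i).symm) (fun i j => (h12 j i).symm)) c₃ c₂ c₁ hn₁
  have R231 : Res (chartMap c₂) (chartMap c₃) (chartMap c₁) :=
    residuation rfl P₂ P₃ P₁ (inj3 hi₂ hi₃ hi₁ h23
      (fun i j => (h12 j i).symm) (fun i j => (h13 j i).symm)) c₂ c₃ c₁ hn₁
  have N31 : NegRel (chartMap c₃) (chartMap c₁) := R321.negRel (chartMap_zero c₂)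
  have N21 : NegRel (chartMap c₂) (chartMap c₁) := R231.negRel (chartMap_zero c₃)
  obtain ⟨M, hM0, ⟨L, hL⟩, hadd⟩ :=
    exists_groupLaw (chartMap_zero c₂) (chartMap_zero c₁) R123 R312 R321
  obtain ⟨r₀, hr₀, hinj⟩ := chartMap_injOn rfl P₁ P₃ (hi₁.sumElim hi₃ h13) c₁ c₃ hn₁ hn₃
  -- small classes
  have hsmall : ∀ (r : ℝ), 0 < r → ∀ v : Place ℂ Fc, ∀ᶠ w in 𝓝 v,
      ∃ u ∈ ball (0 : Fin (genusFF ℂ Fc) → ℂ) r,
        cls (Finsupp.single w 1 - Finsupp.single v 1 : Divisor ℂ Fc) = chartMap c₁ u := by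
    intro r hr v
    by_cases hv : ∀ i, P₂ i ≠ v
    · exact small_class_aux rfl P₂ hi₂ c₂ hn₂ _ N21 v hv r hr
    · push Not at hv
      obtain ⟨i₀, rfl⟩ := hv
      exact small_class_aux rfl P₃ hi₃ c₃ hn₃ _ N31 _ (fun i => (h23 i₀ i).symm) r hr
  -- a base point outside `S`
  have hinf : Infinite (Place ℂ Fc) := infinite_place (K := ℂ)
  obtain ⟨v₀, hv₀⟩ := Infinite.exists_notMem_finset S
  have hconn : ∀ r : ℝ, 0 < r →
      AddSubgroup.closure (chartMap c₁ '' ball (0 : Fin (genusFF ℂ Fc) → ℂ) r) = ⊤ := by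
    intro r hr
    set H := AddSubgroup.closure (chartMap c₁ '' ball (0 : Fin (genusFF ℂ Fc) → ℂ) r) with hH
    have hnear : ∀ v : Place ℂ Fc, ∀ᶠ w in 𝓝 v,
        cls (Finsupp.single w 1 - Finsupp.single v 1 : Divisor ℂ Fc) ∈ H := by
      intro v
      filter_upwards [hsmall r hr v] with w hw
      obtain ⟨u, hu, hwu⟩ := hw
      rw [hwu]
      exact AddSubgroup.subset_closure ⟨u, hu, rfl⟩
    set U : Set (Place ℂ Fc) :=
      {w | cls (Finsupp.single w 1 - Finsupp.single v₀ 1 : Divisor ℂ Fc) ∈ H} with hU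
    have hUopen : IsOpen U := by
      rw [isOpen_iff_mem_nhds]
      intro v hv
      filter_upwards [hnear v] with w hw
      show cls (Finsupp.single w 1 - Finsupp.single v₀ 1 : Divisor ℂ Fc) ∈ H
      rw [cls_single_sub_trans w v v₀]
      exact H.add_mem hw hv
    have hUclosed : IsClosed U := by
      rw [← isOpen_compl_iff, isOpen_iff_mem_nhds]
      intro v hv
      filter_upwards [hnear v] with w hw hwU
      apply hv
      show cls (Finsupp.single v 1 - Finsupp.single v₀ 1 : Divisor ℂ Fc) ∈ H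
      have h1 : cls (Finsupp.single w 1 - Finsupp.single v₀ 1 : Divisor ℂ Fc) ∈ H := hwU
      rw [cls_single_sub_trans w v v₀] at h1
      exact (H.add_mem_cancel_left hw).mp h1
    have hv₀U : v₀ ∈ U := by
      show cls (Finsupp.single v₀ 1 - Finsupp.single v₀ 1 : Divisor ℂ Fc) ∈ H
      rw [sub_self, cls_zero]
      exact H.zero_mem
    have hUuniv : U = Set.univ := clopen_eq_univ S hS U ⟨hUclosed, hUopen⟩ v₀ hv₀U hv₀
    rw [eq_top_iff]
    intro c _
    obtain ⟨e, rfl⟩ := exists_cls_eq_sum v₀ c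
    refine H.sum_mem fun i _ => ?_
    have : e i ∈ U := by rw [hUuniv]; trivial
    exact this
  obtain ⟨ρm, hm⟩ := F.exists_isMulChart (chartMap c₁) M r₀ hr₀ hinj (chartMap_zero c₁) hM0
    ⟨_, hL.restrictScalars ℝ⟩ hadd n hn
  exact F.divisible hconn hn hm x

end Fermat.Agent.FFDiv
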