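import Fermat.Agent.S27.B.Descend

/-!
# FFDiv : `n`-division classes of extended classes descend under constant field extensions

Generalisation of `S27.IsConstExt.torsion_descends` (same finite orbit argument).
-/

set_option autoImplicit false
set_option linter.unusedSectionVars false

namespace Fermat.Agent.FFDiv

open AlgebraicCurve Fermat.Agent.S24.FF Fermat.Agent.S27 TensorProduct

variable {k K Fk F : Type*} [Field k] [Field K] [Field Fk] [Field F]
  [Algebra k K] [Algebra k Fk] [Algebra K F] [Algebra Fk F] [Algebra k F]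
  [IsScalarTower k K F] [IsScalarTower k Fk F]
  [IsAlgClosed k] [IsAlgClosed K] [CharZero k] [CharZero K] [IsFF1 k Fk] [IsFF1 K F]

/-- a class `c` with `n c` extended from `Fk` is itself extended from `Fk`. -/
theorem div_descends (h : IsConstExt k K Fk F) (n : ℕ)
    (hfin : Finite (Pic0.torsion K F n)) (c : Pic0 K F) (B₀ : Divisor k Fk)
    (hB₀ : Divisor.degree B₀ = 0) (hc : (n : ℤ) • c = cls (h.extDiv B₀)) :
    ∃ D : Divisor k Fk, Divisor.degree D = 0 ∧ cls (h.extDiv D) = c := by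
  classical
  obtain ⟨D, hD0, rfl⟩ := cls_surjective c
  have hB₀' : Divisor.degree (h.extDiv B₀) = 0 := by rw [h.degree_extDiv, hB₀]
  have hnD : Divisor.degree ((n : ℤ) • D) = 0 := by rw [map_zsmul, hD0, smul_zero]
  -- `n • D - B₀` is principal
  have hc' := hc
  rw [← cls_zsmul hD0, cls_eq_iff hnD hB₀'] at hc
  obtain ⟨φ, hφ0, hφ⟩ := hc
  -- the effective divisor `E`
  obtain ⟨A₀, hA₀⟩ := h.desc_exists_ell_eq_one D
  have hne : riemannRochSpace (D + h.extDiv A₀) ≠ ⊥ := by
    intro h'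
    unfold ell at hA₀
    rw [h', finrank_bot] at hA₀
    omega
  obtain ⟨f, hf, hf0⟩ := Submodule.exists_mem_ne_zero_of_ne_bot hne
  set E : Divisor K F := D + h.extDiv A₀ + GAL.FF.divOf K f with hE
  have hEnonneg : ∀ v, 0 ≤ E v := by
    intro v
    exact (GAL.FF.mem_L_iff_divOf hf0).1 hf v
  -- `L(E) = K`
  have hLE : ∀ g : F, g ∈ riemannRochSpace E → g ∈ Set.range (algebraMap K F) := by
    intro g hg
    rcases eq_or_ne g 0 with rfl | hg0
    · exact ⟨0, map_zero _⟩
    have hgf : g * f ∈ riemannRochSpace (D + h.extDiv A₀) := by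
      rw [mem_riemannRochSpace_iff] at hg ⊢
      intro v
      right
      have h1 := (hg v).resolve_left hg0
      rw [hE, Finsupp.add_apply, GAL.FF.divOf_apply] at h1
      rw [v.ord_mul hg0 hf0]
      omega
    obtain ⟨a, ha⟩ := (finrank_eq_one_iff_of_nonzero' (⟨f, hf⟩ : riemannRochSpace (D + h.extDiv A₀))
      (by simpa [Subtype.ext_iff] using hf0)).1 hA₀ ⟨g * f, hgf⟩
    have ha' : a • f = g * f := congrArg Subtype.val ha
    rw [Algebra.smul_def] at ha'
    exact ⟨a, mul_right_cancel₀ hf0 ha'⟩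
  -- it suffices to show that the support of `E` consists of extended places
  suffices hsupp : ∀ w ∈ E.support, w ∈ Set.range h.ext by
    obtain ⟨E₀, hE₀⟩ := h.exists_extDiv_eq E hsupp
    have hdeg : Divisor.degree (h.extDiv (E₀ - A₀)) = 0 := by
      rw [h.desc_extDiv_sub, hE₀, hE, map_sub, map_add, map_add, GAL.FF.degree_divOf, hD0]
      ring
    refine ⟨E₀ - A₀, by rw [← h.degree_extDiv, hdeg], ?_⟩
    rw [cls_eq_iff hdeg hD0]
    refine ⟨f, hf0, fun v => ?_⟩
    rw [h.desc_extDiv_sub, hE₀, hE]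
    simp only [Finsupp.sub_apply, Finsupp.add_apply, GAL.FF.divOf_apply]
    ring
  intro w hw
  by_contra hwr
  obtain ⟨x, hx, -⟩ := IsFF1.exists_transcendental (K := k) (F := Fk)
  have hxK : Transcendental K (algebraMap Fk F x) := h.transcendental_map hx
  have hw' : ¬ (w.ord (algebraMap Fk F x) < 0 ∨
      ∃ a : k, 0 < w.ord (algebraMap Fk F x - algebraMap K F (algebraMap k K a))) :=
    fun hh => hwr (h.mem_range_ext hx w hh)
  rw [not_or, not_lt, not_exists] at hw'
  obtain ⟨hwx, hwk⟩ := hw'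
  obtain ⟨z, hz⟩ := exists_ord_sub_pos w hwx
  have hz : 0 < w.ord (algebraMap Fk F x - algebraMap K F z) := by
    rcases hz with hz | hz
    · exact absurd (hz ▸ isAlgebraic_algebraMap z) hxK
    · exact hz
  have hztr : Transcendental k z := by
    apply transcendental_of_not_mem_range
    rintro ⟨a, rfl⟩
    exact hwk a hz
  -- the automorphisms
  have hex : ∀ m : ℕ, ∃ s : SemiAut K F, s.σ z = z + m ∧
      ∀ f : Fk, s.τ (algebraMap Fk F f) = algebraMap Fk F f := by
    intro m
    obtain ⟨σ, hσ⟩ := exists_algEquiv_add_natCast k K z hztr m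
    obtain ⟨s, hs1, hs2⟩ := h.exists_semiAut σ
    exact ⟨s, by rw [hs1, hσ], hs2⟩
  choose s hsz hsF using hex
  have hdegm : ∀ m, Divisor.degree ((s m).mapDiv D) = 0 := fun m => by
    rw [(s m).degree_mapDiv, hD0]
  have htors : ∀ m, cls ((s m).mapDiv D) - cls D ∈ Pic0.torsion K F n := by
    intro m
    rw [Pic0.mem_torsion, zsmul_sub, hc', sub_eq_zero, ← cls_zsmul (hdegm m),
      cls_eq_iff (by rw [map_zsmul, hdegm m, smul_zero]) hB₀']
    refine ⟨(s m).τ φ, by simpa using hφ0, fun v => ?_⟩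
    have h1 := (s m).mapDiv_eq_ord (D := (n : ℤ) • D - h.extDiv B₀) (f := φ) hφ v
    rw [(s m).mapDiv_sub, (s m).mapDiv_zsmul, h.desc_mapDiv_extDiv (s m) (hsF m)] at h1
    exact h1
  obtain ⟨y, hy⟩ := Finite.exists_infinite_fiber
    (fun m : ℕ => (⟨cls ((s m).mapDiv D) - cls D, htors m⟩ : Pic0.torsion K F n))
  rw [Set.infinite_coe_iff] at hy
  obtain ⟨m₀, hm₀⟩ := hy.nonempty
  -- all `τ_m E`, `m` in the fibre, are equal
  have hEm : ∀ m ∈ (fun m : ℕ => (⟨cls ((s m).mapDiv D) - cls D, htors m⟩ : Pic0.torsion K F n)) ⁻¹' {y},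
      (s m).mapDiv E = (s m₀).mapDiv E := by
    intro m hm
    have hcls : cls ((s m).mapDiv D) = cls ((s m₀).mapDiv D) := by
      have h1 : (⟨cls ((s m).mapDiv D) - cls D, htors m⟩ : Pic0.torsion K F n) = y := hm
      have h2 : (⟨cls ((s m₀).mapDiv D) - cls D, htors m₀⟩ : Pic0.torsion K F n) = y := hm₀
      exact sub_left_injective (congrArg Subtype.val (h1.trans h2.symm))
    rw [cls_eq_iff (hdegm m) (hdegm m₀)] at hcls
    obtain ⟨g, hg0, hg⟩ := hcls
    have hfm : ∀ m, (s m).τ f ≠ 0 := fun m => by simpa using hf0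
    have hEdiv : ∀ m v, (s m).mapDiv E v =
        (s m).mapDiv D v + h.extDiv A₀ v + v.ord ((s m).τ f) := by
      intro m v
      rw [hE, (s m).mapDiv_add, (s m).mapDiv_add, h.desc_mapDiv_extDiv (s m) (hsF m),
        Finsupp.add_apply, Finsupp.add_apply,
        (s m).mapDiv_eq_ord (D := GAL.FF.divOf K f) (f := f) (fun _ => rfl) v]
    -- `G = g τ_m f / τ_{m₀} f` has divisor `τ_m E - τ_{m₀} E`
    set G : F := g * (s m).τ f * ((s m₀).τ f)⁻¹ with hG
    have hG0 : G ≠ 0 := mul_ne_zero (mul_ne_zero hg0 (hfm m)) (inv_ne_zero (hfm m₀))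
    have hGord : ∀ v : Place K F, v.ord G = (s m).mapDiv E v - (s m₀).mapDiv E v := by
      intro v
      rw [hG, v.ord_mul (mul_ne_zero hg0 (hfm m)) (inv_ne_zero (hfm m₀)), v.ord_mul hg0 (hfm m),
        v.ord_inv, hEdiv, hEdiv, ← hg v]
      ring
    -- `τ_m⁻¹ G⁻¹ ∈ L(E)`
    have hmem : (s m).τ.symm G⁻¹ ∈ riemannRochSpace E := by
      rw [← (s m).mem_riemannRochSpace_mapDiv, RingEquiv.apply_symm_apply,
        mem_riemannRochSpace_iff]
      intro v
      right
      rw [v.ord_inv, hGord]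
      have := (s m₀).mapDiv_nonneg hEnonneg v
      omega
    obtain ⟨a, ha⟩ := hLE _ hmem
    have hGa : G⁻¹ = algebraMap K F ((s m).σ a) := by
      rw [← (s m).comm, ha, RingEquiv.apply_symm_apply]
    ext v
    have h1 := hGord v
    have h2 : v.ord G⁻¹ = 0 := by rw [hGa, ord_algebraMap]
    rw [v.ord_inv] at h2
    omega
  -- the places `τ_m w` all lie in the finite support of `τ_{m₀} E` and are distinct
  have hmaps : Set.MapsTo (fun m => (s m).mapPlace w)
      ((fun m : ℕ => (⟨cls ((s m).mapDiv D) - cls D, htors m⟩ : Pic0.torsion K F n)) ⁻¹' {y})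
      (((s m₀).mapDiv E).support : Set (Place K F)) := by
    intro m hm
    rw [← hEm m hm]
    exact (s m).mapPlace_mem_support hw
  have hinj : Set.InjOn (fun m => (s m).mapPlace w)
      ((fun m : ℕ => (⟨cls ((s m).mapDiv D) - cls D, htors m⟩ : Pic0.torsion K F n)) ⁻¹' {y}) := by
    intro m _ m' _ hmm
    have hord : ∀ m, 0 < ((s m).mapPlace w).ord
        (algebraMap Fk F x - algebraMap K F (z + m)) := by
      intro m
      rw [← hsz m, ← (s m).comm, ← hsF m x, ← map_sub, (s m).ord_mapPlace]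
      exact hz
    have h1 := hord m
    have h2 := hord m'
    simp only at hmm
    rw [hmm] at h1
    have h3 := eq_of_ord_sub_pos _ h1 h2
    exact_mod_cast add_left_cancel h3
  exact hy (Set.Finite.of_injOn hmaps hinj (Finset.finite_toSet _))

end Fermat.Agent.FFDiv
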