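import Fermat.Agent.FFDiv.Complex
import Fermat.Agent.FFDiv.Descend
import Fermat.Agent.S27.B.Lefschetz

/-!
# FFDiv : `Pic⁰` of a function field of one variable over an algebraically closed field of
characteristic `0` is a divisible group (Lefschetz principle + the analytic result over `ℂ`).
-/

set_option autoImplicit false

universe u v

namespace Fermat.Agent.FFDiv

open AlgebraicCurve Fermat.Agent.S24.FF Fermat.Agent.S27

/-- **`Pic⁰(F)` is divisible.** -/
theorem pic0_divisible (K : Type u) (F : Type v) [Field K] [Field F] [Algebra K F]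
    [IsAlgClosed K] [CharZero K] [IsFF1 K F] (n : ℕ) (hn : 0 < n) (c : Pic0 K F) :
    ∃ b : Pic0 K F, n • b = c := by
  classical
  obtain ⟨D, hD0, rfl⟩ := cls_surjective c
  obtain ⟨d, hd⟩ := exists_descentData K F D.support
  obtain ⟨D₀, hD₀⟩ := d.isConstExt.exists_extDiv_eq D hd
  have hdeg0 : Divisor.degree D₀ = 0 := by rw [← d.isConstExt.degree_extDiv, hD₀, hD0]
  obtain ⟨φ⟩ := B.exists_ringHom_complex d.k
  let _ : Algebra d.k ℂ := φ.toAlgebra
  obtain ⟨Fc, _, _, _, _, _, _, hc⟩ := exists_complexification d.k d.Fk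
  have : IsFF1 ℂ Fc := hc.isFF1
  have hfin : Finite (Pic0.torsion ℂ Fc n) :=
    Nat.finite_of_card_ne_zero (by
      rw [card_torsion_complex Fc n hn]; exact pow_ne_zero _ hn.ne')
  obtain ⟨b', hb'⟩ := divisible_complex Fc n hn (cls (hc.extDiv D₀))
  obtain ⟨D₁, hD₁, hD₁c⟩ := div_descends hc n hfin b' D₀ hdeg0 (by rw [natCast_zsmul, hb'])
  obtain ⟨ψc, hinjc, hψc⟩ := hc.exists_pic0Map
  obtain ⟨ψ, -, hψ⟩ := d.isConstExt.exists_pic0Map
  have h1 : n • cls D₁ = cls D₀ := by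
    apply hinjc
    rw [map_nsmul, hψc D₁ hD₁, hψc D₀ hdeg0, hD₁c, hb']
  refine ⟨ψ (cls D₁), ?_⟩
  rw [← map_nsmul, h1, hψ D₀ hdeg0, hD₀]

/-- `ℤ`-version. -/
theorem pic0_divisible_int (K : Type u) (F : Type v) [Field K] [Field F] [Algebra K F]
    [IsAlgClosed K] [CharZero K] [IsFF1 K F] (n : ℤ) (hn : n ≠ 0) (c : Pic0 K F) :
    ∃ b : Pic0 K F, n • b = c := by
  obtain ⟨b, hb⟩ := pic0_divisible K F n.natAbs (Int.natAbs_pos.mpr hn) c
  rcases Int.natAbs_eq n with h | h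
  · exact ⟨b, by rw [h, natCast_zsmul, hb]⟩
  · exact ⟨-b, by rw [h, neg_smul, smul_neg, neg_neg, natCast_zsmul, hb]⟩

end Fermat.Agent.FFDiv
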